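import Mathlib
import Fermat.Agent.LT.General.Spectral.Class
import Fermat.Agent.LT.General.Level.Facts
import Fermat.Agent.LT.Descent.Spectral.Twist
import Fermat.Agent.LT.Descent.Classical.Sph

set_option autoImplicit false
set_option linter.unusedSectionVars false

/-!
# The forms of the type of the box group are fixed by the automorphism

The coefficient at `-1/M₁` is the same for a form and its conjugate.
-/

noncomputable section

open MeasureTheory NumberField IsDedekindDomain
open scoped ComplexConjugate MatrixGroups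
open FermatAgent.LT (H3 XInf Adf GAf Cosets YSpace upperTri rationalMat infAct galX galY galCoset
  galPlace galGAf galAdele galPerm galFlip ptEmb HasExpansion IsCuspFn IsEigenAt diagW waveProd)

namespace FermatAgent.LTG

section Gal

variable {L : Type*} [Field L] [NumberField L]

theorem wave_conj (ν : ℂ) (P : H3) : H3.wave (conj ν) (H3.conjPt P) = H3.wave ν P := by
  simp [H3.wave, H3.conjPt, Complex.mul_re]

theorem wave_ptEmb (μ : L) (x : XInf L) (φ : L →+* ℂ) :
    (‖φ μ‖ : ℂ) * H3.wave (φ μ) (ptEmb x φ) =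
      (‖(InfinitePlace.mk φ).embedding μ‖ : ℂ) *
        H3.wave ((InfinitePlace.mk φ).embedding μ) (x (InfinitePlace.mk φ)) := by
  rw [ptEmb]
  split_ifs with h
  · rw [← h]
  · rcases InfinitePlace.mk_eq_iff.mp (InfinitePlace.mk_embedding (InfinitePlace.mk φ)) with h' | h'
    · exact absurd h'.symm h
    · have e : φ μ = conj ((InfinitePlace.mk φ).embedding μ) :=
        (RingHom.congr_fun h' μ).symm
      rw [e, wave_conj, RCLike.norm_conj]

theorem waveProd_galX (σ : L ≃+* L) (μ : L) (x : XInf L) :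
    waveProd (σ μ) (galX σ x) = waveProd μ x := by
  unfold waveProd
  rw [← (galPerm σ).prod_comp fun w => (‖w.embedding μ‖ : ℂ) * H3.wave (w.embedding μ) (x w)]
  refine Finset.prod_congr rfl fun w _ => ?_
  have e : galPerm σ w = InfinitePlace.mk (w.embedding.comp σ.toRingHom) := by
    change w.comap σ.toRingHom = _
    conv_lhs => rw [← InfinitePlace.mk_embedding w]
    exact InfinitePlace.comap_mk _ _
  rw [e, ← wave_ptEmb]
  rfl

theorem galGAf_upperTri (σ : L ≃+* L) (a c : (Adf L)ˣ) (b : Adf L) :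
    galGAf σ (upperTri a b c) = upperTri (Units.map (galAdele σ).toMonoidHom a) (galAdele σ b)
      (Units.map (galAdele σ).toMonoidHom c) := by
  refine Units.ext (Matrix.ext fun i j => ?_)
  fin_cases i <;> fin_cases j <;> simp [galGAf, upperTri]

/-- The conjugate of an expansion. -/
theorem hasExpansion_gal (σ : L ≃+* L) {φ : XInf L → GAf L → ℂ} {W : GAf L → ℂ}
    (h : HasExpansion φ W) :
    HasExpansion (fun x g => φ (galX σ x) (galGAf σ g)) fun g => W (galGAf σ g) := by
  intro x g
  refine ((Units.mapEquiv σ.toMulEquiv).toEquiv.hasSum_iff.mpr (h _ _)).congr_fun fun μ => ?_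
  change W (galGAf σ (rationalMat (upperTri μ 0 1) * g)) * waveProd (μ : L) x =
    W (rationalMat (upperTri (Units.map σ.toMulEquiv.toMonoidHom μ) 0 1) * galGAf σ g) *
      waveProd (σ μ) (galX σ x)
  rw [waveProd_galX, map_mul, LT.galGAf_rationalMat]
  congr 3
  refine congrArg rationalMat (Units.ext (Matrix.ext fun i j => ?_))
  fin_cases i <;> fin_cases j <;> simp [upperTri]

theorem continuous_galX (σ : L ≃+* L) : Continuous (galX (L := L) σ) := by
  refine continuous_pi fun w => ?_
  unfold galX ptEmb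
  split_ifs
  · exact continuous_apply _
  · refine continuous_induced_rng.mpr ?_
    exact ((Complex.continuous_conj.comp (continuous_fst.comp H3.continuous_coords)).prodMk
      (continuous_snd.comp H3.continuous_coords)).comp (continuous_apply _)

theorem isSph0_comp_galFlip (σ : L ≃+* L) (w : InfinitePlace L) {f : H3 → ℂ} (h : H3.IsSph0 f) :
    H3.IsSph0 fun P => f (galFlip σ w P) := by
  unfold galFlip
  split_ifs
  · exact h
  · intro P ε hε
    have e : H3.conjPt ⁻¹' H3.ball (H3.conjPt P) ε = H3.ball P ε := by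
      ext Q
      simp only [Set.mem_preimage, H3.ball, Set.mem_ofPred_eq, H3.coshDist_conj]
    have h2 := H3.measurePreserving_conjPt.setIntegral_preimage_emb
      H3.conjEquiv.measurableEmbedding f (H3.ball (H3.conjPt P) ε)
    rw [e] at h2
    exact h2.trans (h (H3.conjPt P) ε hε)

theorem galX_update [DecidableEq (InfinitePlace L)] (σ : L ≃+* L) (w : InfinitePlace L)
    (x : XInf L) (P : H3) :
    galX σ (Function.update x w P) =
      Function.update (galX σ x) ((galPerm σ).symm w) (galFlip σ ((galPerm σ).symm w) P) := by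
  funext u
  rw [← LT.galFlip_apply, show u.comap σ.toRingHom = galPerm σ u from rfl]
  rcases eq_or_ne u ((galPerm σ).symm w) with rfl | hu
  · rw [Function.update_self, Equiv.apply_symm_apply, Function.update_self]
  · rw [Function.update_of_ne hu, Function.update_of_ne fun he => hu (by
      rw [← he, Equiv.symm_apply_apply]), ← LT.galFlip_apply,
      show u.comap σ.toRingHom = galPerm σ u from rfl]

end Gal

/-- A cusp form of the type of the box group with eigenvalues `l` at all good places. -/
structure IsFormFun {S : Setup} (D : S.Level) (σ : S.F ≃+* S.F)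
    (l : HeightOneSpectrum (𝓞 S.F) → ℂ) (Φ : YSpace (D.levelIdeal S.F) → ℂ) : Prop where
  cusp : IsCuspFn (D.levelIdeal S.F) fun x g => Φ (x, (g : Cosets (D.levelIdeal S.F)))
  level : ∀ x, D.levelOpF σ (fun p => Φ (x, p)) = fun p => Φ (x, p)
  hecke : ∀ w, (S.m : 𝓞 S.F) ∉ w.asIdeal → ∀ x,
    LT.heckeOp (D.levelIdeal S.F) w (fun p => Φ (x, p)) =
      fun p => (Real.sqrt (Ideal.absNorm w.asIdeal) : ℂ) * l w * Φ (x, p)

namespace IsFormFun

variable {S : Setup} {D : S.Level} {σ : S.F ≃+* S.F} {l : HeightOneSpectrum (𝓞 S.F) → ℂ}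
  {Φ : YSpace (D.levelIdeal S.F) → ℂ}

theorem eigen (h : IsFormFun D σ l Φ) {w : HeightOneSpectrum (𝓞 S.F)}
    (hw : (S.m : 𝓞 S.F) ∉ w.asIdeal) :
    IsEigenAt w (fun x g => Φ (x, (g : Cosets (D.levelIdeal S.F)))) (l w) := by
  intro x g
  have h1 := congrFun (h.hecke w hw x) (g : Cosets (D.levelIdeal S.F))
  rw [LT.heckeOp_mk (D.levelIdeal_ne_bot S.F) (D.not_levelIdeal_le hw) _ g x] at h1
  exact h1

theorem chi (h : IsFormFun D σ l Φ) : ∀ M ∈ (D.boxF σ).resSet, ∀ x (g : GAf S.F),
    Φ (x, ((g * (D.boxF σ).lift M : GAf S.F) : Cosets (D.levelIdeal S.F))) =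
      (D.boxF σ).chi M * Φ (x, (g : Cosets (D.levelIdeal S.F))) :=
  fun M hM x g => (D.levelOpF_eq_self_iff σ).mp (h.level x) M hM g

theorem eq_zero (h : IsFormFun D σ l Φ) {W : GAf S.F → ℂ}
    (hW : HasExpansion (fun x g => Φ (x, (g : Cosets (D.levelIdeal S.F)))) W)
    (h0 : diagW W D.nu0 = 0) : Φ = 0 := by
  have := D.eq_zero_of_nu0 h.cusp hW h.chi (fun w hw => ⟨l w, h.eigen hw⟩) h0
  funext y
  obtain ⟨x, q⟩ := y
  induction q using QuotientGroup.induction_on with
  | H g => exact congrFun (congrFun this x) g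

/-- The conjugate form. -/
theorem gal (h : IsFormFun D σ l Φ) (hσ : S.IsGalGen σ)
    (hl : ∀ w, (S.m : 𝓞 S.F) ∉ w.asIdeal → l (galPlace σ w) = l w) :
    IsFormFun D σ l fun y => Φ (galY σ y) := by
  classical
  have hn := D.levelIdeal_ne_bot S.F
  have hmap : (D.levelIdeal S.F).map (LT.galInt σ) = D.levelIdeal S.F := D.levelIdeal_map σ
  have hmk : ∀ x (g : GAf S.F), Φ (galY σ (x, (g : Cosets (D.levelIdeal S.F)))) =
      Φ (galX σ x, ((galGAf σ g : GAf S.F) : Cosets (D.levelIdeal S.F))) := fun x g => by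
    rw [← LT.galCoset_mk hn hmap]
    rfl
  obtain ⟨W, hW⟩ := h.cusp.expansion
  refine ⟨⟨fun γ x g => ?_, fun a x g => ?_, fun k hk x g => ?_, fun g => ?_, ?_, fun w x g => ?_,
    ⟨fun g => W (galGAf σ g), ?_⟩⟩, fun x => ?_, fun w hw x => ?_⟩
  · simp only [hmk, map_mul, LT.galGAf_rationalMat, LT.galX_infAct]
    exact h.cusp.rational _ _ _
  · simp only [hmk, map_mul, galGAf_upperTri, map_zero]
    exact h.cusp.central _ _ _
  · refine congrArg (fun q => Φ (galY σ (x, q))) (QuotientGroup.eq.mpr ?_)
    rw [mul_inv_rev, mul_assoc, inv_mul_cancel, mul_one]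
    exact Subgroup.mem_sup_left (inv_mem hk)
  · simp only [hmk]
    exact (h.cusp.continuous _).comp (continuous_galX σ)
  · obtain ⟨C, hC⟩ := h.cusp.bounded
    exact ⟨C, fun x g => by rw [hmk]; exact hC _ _⟩
  · simp only [hmk, galX_update]
    exact isSph0_comp_galFlip σ _ (h.cusp.sph0 _ _ _)
  · simp only [hmk]
    exact hasExpansion_gal σ hW
  · have e := D.levelOpF_galCoset hσ fun p => Φ (galX σ x, p)
    rw [h.level] at e
    exact e
  · have hw' : (S.m : 𝓞 S.F) ∉ (galPlace σ w).asIdeal := fun h' =>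
      hw ((LT.natCast_mem_galPlace σ w _).mp h')
    obtain ⟨w', rfl⟩ : ∃ w', galPlace σ w' = w :=
      ⟨galPlace σ.symm w, by
        refine IsDedekindDomain.HeightOneSpectrum.ext (Ideal.ext fun z => ?_)
        simp only [LT.galPlace_asIdeal, LT.galInt, Ideal.mem_comap]
        have e : RingOfIntegers.mapRingEquiv σ.symm (RingOfIntegers.mapRingEquiv σ z) = z :=
          RingOfIntegers.ext (σ.symm_apply_apply _)
        exact iff_of_eq (congrArg (· ∈ w.asIdeal) e)⟩
    have hw1 : (S.m : 𝓞 S.F) ∉ w'.asIdeal := fun h' =>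
      hw ((LT.natCast_mem_galPlace σ w' _).mpr h')
    have e := LT.heckeOp_galCoset hn hmap (D.not_levelIdeal_le hw1) fun p => Φ (galX σ x, p)
    rw [h.hecke w' hw1] at e
    refine e.trans (funext fun p => ?_)
    simp only [Function.comp_apply, LT.absNorm_galPlace, hl w' hw1]
    rfl

theorem diagW_gal (_hσ : ∀ n : ℕ, σ (n : S.F) = (n : S.F)) (W : GAf S.F → ℂ) :
    diagW (fun g => W (galGAf σ g)) D.nu0 = diagW W D.nu0 := by
  change W (galGAf σ (upperTri D.nu0 0 1)) = W (upperTri D.nu0 0 1)
  rw [galGAf_upperTri, map_zero, map_one]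
  congr 2
  refine Units.ext ?_
  simp [Setup.Level.nu0, LT.galAdele_algebraMap, map_natCast]

/-- **A form of the type of the box group is fixed by the automorphism.** -/
theorem eq_gal (h : IsFormFun D σ l Φ) (hσ : S.IsGalGen σ)
    (hl : ∀ w, (S.m : 𝓞 S.F) ∉ w.asIdeal → l (galPlace σ w) = l w) (y : YSpace (D.levelIdeal S.F)) :
    Φ (galY σ y) = Φ y := by
  classical
  have h' := h.gal hσ hl
  obtain ⟨W, hW⟩ := h.cusp.expansion
  have hmap : (D.levelIdeal S.F).map (LT.galInt σ) = D.levelIdeal S.F := D.levelIdeal_map σ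
  have hW' : HasExpansion (fun x g => Φ (galY σ (x, (g : Cosets (D.levelIdeal S.F)))))
      fun g => W (galGAf σ g) := by
    intro x g
    have e : Φ (galY σ (x, (g : Cosets (D.levelIdeal S.F)))) =
        Φ (galX σ x, ((galGAf σ g : GAf S.F) : Cosets (D.levelIdeal S.F))) := by
      rw [← LT.galCoset_mk (D.levelIdeal_ne_bot S.F) hmap]
      rfl
    have h0 := hasExpansion_gal σ hW x g
    simpa only [← e] using h0
  have hd : IsFormFun D σ l fun y => Φ (galY σ y) - Φ y := by
    refine ⟨⟨fun γ x g => ?_, fun a x g => ?_, fun k hk x g => ?_, fun g => ?_, ?_, fun w x g => ?_,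
      _, hW'.sub hW⟩, fun x => ?_, fun w hw x => ?_⟩
    · exact congrArg₂ (· - ·) (h'.cusp.rational γ x g) (h.cusp.rational γ x g)
    · exact congrArg₂ (· - ·) (h'.cusp.central a x g) (h.cusp.central a x g)
    · exact congrArg₂ (· - ·) (h'.cusp.level k hk x g) (h.cusp.level k hk x g)
    · exact (h'.cusp.continuous g).sub (h.cusp.continuous g)
    · obtain ⟨C, hC⟩ := h'.cusp.bounded
      obtain ⟨C', hC'⟩ := h.cusp.bounded
      exact ⟨C + C', fun x g => (norm_sub_le _ _).trans (add_le_add (hC x g) (hC' x g))⟩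
    · have e := H3.IsSph0.sum (Finset.univ : Finset Bool) (f := fun b P => cond b
          (Φ (galY σ (Function.update x w P, (g : Cosets (D.levelIdeal S.F)))))
          (-1 * Φ (Function.update x w P, (g : Cosets (D.levelIdeal S.F))))) ?_ ?_ ?_
      · convert e using 1
        funext P
        simp [sub_eq_add_neg]
      · rintro (_ | _) _
        · exact continuous_const.mul ((h.cusp.continuous g).comp
            (continuous_const.update w continuous_id))
        · exact (h'.cusp.continuous g).comp (continuous_const.update w continuous_id)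
      · rintro (_ | _) _
        · obtain ⟨C, hC⟩ := h.cusp.bounded
          exact ⟨C, fun P => by simpa using hC (Function.update x w P) g⟩
        · obtain ⟨C, hC⟩ := h'.cusp.bounded
          exact ⟨C, fun P => hC _ _⟩
      · rintro (_ | _) _
        · exact (h.cusp.sph0 w x g).const_mul _
        · exact h'.cusp.sph0 w x g
    · change D.levelOpF σ ((fun p => Φ (galY σ (x, p))) - fun p => Φ (x, p)) = _
      rw [map_sub, h'.level, h.level]
      rfl
    · change LT.heckeOp _ w ((fun p => Φ (galY σ (x, p))) - fun p => Φ (x, p)) = _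
      rw [map_sub, h'.hecke w hw, h.hecke w hw]
      funext p
      simp only [Pi.sub_apply]
      ring
  have h0 := hd.eq_zero (hW'.sub hW) (by
    change diagW (fun g => W (galGAf σ g)) D.nu0 - diagW W D.nu0 = 0
    rw [diagW_gal fun n => map_natCast σ n, sub_self])
  exact sub_eq_zero.mp (congrFun h0 y)

end IsFormFun

end FermatAgent.LTG

end
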