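import Mathlib
import Fermat.Agent.LT.General.Spectral.Data
import Fermat.Agent.LT.General.Geom.Local.Places
import Fermat.Agent.LT.General.Level.Facts

set_option autoImplicit false

/-!
# The Hecke operators of all the good places on the vectors of `F`
-/

noncomputable section

open MeasureTheory NumberField IsDedekindDomain
open scoped ComplexConjugate MatrixGroups InnerProductSpace
open FermatAgent.LT (H3 YSpace yVol yKer yConv IsYKernel IsCosetOp IsHermOp Cosets AutDomain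
  unitKer galPlace)

namespace FermatAgent.LTG

namespace Combo

variable {S : Setup} (D : S.Level) (σ : S.F ≃+* S.F)

/-- A product kernel whose operator commutes with the level and the Hecke operators commutes with
every combination. -/
theorem yConv_yKer_commF {h : InfinitePlace S.F → H3 → H3 → ℂ} (hh : ∀ u, LT.H3.IsInvKer (h u))
    {T : Module.End ℂ (Cosets (D.levelIdeal S.F) → ℂ)} (hT : IsCosetOp T)
    (hL : Commute T (D.levelOpF σ))
    (hH : ∀ w : HeightOneSpectrum (𝓞 S.F), (S.m : 𝓞 S.F) ∉ w.asIdeal →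
      Commute T (LT.heckeOp (D.levelIdeal S.F) w)) :
    ∀ A : Combo S, yConv (yKer h T) (Combo.kerF D σ A) = yConv (Combo.kerF D σ A) (yKer h T)
  | [] => by rw [kerF_nil, yConv_zero_right, yConv_zero_left]
  | p :: A => by
    have hk : IsYKernel (yKer (𝔫 := D.levelIdeal S.F) h T) := LT.isYKernel_yKer hh hT
    have e : yConv (yKer h T) (p.2.kerF D σ) = yConv (p.2.kerF D σ) (yKer h T) := by
      rw [KWord.kerF_eq, LT.yConv_yKer hT p.2.isCosetOp_opF, LT.yConv_yKer p.2.isCosetOp_opF hT,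
        (show Commute T (p.2.opF D σ) from hL.mul_right
          (commute_map_prod fun w hw => hH w (p.2.good w hw).1)).eq]
      congr 1
      funext u
      exact LT.H3.kConv_comm (hh u) (p.2.inv u)
    rw [kerF_cons, yConv_add_right hk (isYKernel_smul p.2.isYKernel_kerF _) (isYKernel_kerF D σ A),
      yConv_add_left (isYKernel_smul p.2.isYKernel_kerF _) (isYKernel_kerF D σ A) hk,
      yConv_smul_right, yConv_smul_left, e, yConv_yKer_commF hh hT hL hH A]

end Combo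

namespace Setup.Level

variable {S : Setup} (D : S.Level) (σ : S.F ≃+* S.F)
  (𝔇F : AutDomain PGL(2, S.F) (yVol (D.levelIdeal S.F)))

theorem isCosetOp_levelHecke {w : HeightOneSpectrum (𝓞 S.F)} (hw : (S.m : 𝓞 S.F) ∉ w.asIdeal) :
    IsCosetOp (D.levelOpF σ * LT.heckeOp (D.levelIdeal S.F) w) :=
  (D.isCosetOp_levelOpF σ).mul
    (LT.isCosetOp_heckeOp (D.levelIdeal_ne_bot S.F) (D.not_levelIdeal_le hw))

theorem commute_levelHecke {w : HeightOneSpectrum (𝓞 S.F)} (hw : (S.m : 𝓞 S.F) ∉ w.asIdeal)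
    {w' : HeightOneSpectrum (𝓞 S.F)} (hw' : (S.m : 𝓞 S.F) ∉ w'.asIdeal) :
    Commute (D.levelOpF σ * LT.heckeOp (D.levelIdeal S.F) w)
      (LT.heckeOp (D.levelIdeal S.F) w') :=
  (D.commute_levelOpF σ hw').mul_left (KWord.commute_heckeOpF hw hw')

/-- The operator of a good place on the vectors. -/
def heckeClm (w : HeightOneSpectrum (𝓞 S.F)) (hw : (S.m : 𝓞 S.F) ∉ w.asIdeal) :
    𝔇F.Space →L[ℂ] 𝔇F.Space :=
  (LT.isYKernel_unitKer (D.isCosetOp_levelHecke σ hw)).clm 𝔇F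

theorem heckeClm_eq_OF {w : HeightOneSpectrum (𝓞 S.F)} (hw : S.IsLetter w) :
    D.heckeClm σ 𝔇F w hw.1 = Combo.OF D σ (Combo.single (KWord.heckeW w hw)) 𝔇F :=
  clm_congr' 𝔇F _ _ (by rw [Combo.kerF_single, KWord.kerF_heckeW])

theorem commute_OF_heckeClm (A : Combo S) {w : HeightOneSpectrum (𝓞 S.F)}
    (hw : (S.m : 𝓞 S.F) ∉ w.asIdeal) :
    Commute (Combo.OF D σ A 𝔇F) (D.heckeClm σ 𝔇F w hw) := by
  rw [Commute, SemiconjBy, Combo.OF, heckeClm, IsYKernel.clm_mul, IsYKernel.clm_mul]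
  exact clm_congr' 𝔇F _ _ (Combo.yConv_yKer_commF D σ (fun _ => LT.H3.isInvKer_ballKer 1)
    (D.isCosetOp_levelHecke σ hw)
    ((Commute.refl (D.levelOpF σ)).mul_left (D.commute_levelOpF σ hw).symm)
    (fun _ hw' => D.commute_levelHecke σ hw hw') A).symm

theorem commute_heckeClm {w : HeightOneSpectrum (𝓞 S.F)} (hw : (S.m : 𝓞 S.F) ∉ w.asIdeal)
    {w' : HeightOneSpectrum (𝓞 S.F)} (hw' : (S.m : 𝓞 S.F) ∉ w'.asIdeal) :
    Commute (D.heckeClm σ 𝔇F w hw) (D.heckeClm σ 𝔇F w' hw') :=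
  LT.commute_clm_yKer (fun _ => LT.H3.isInvKer_ballKer 1) (fun _ => LT.H3.isInvKer_ballKer 1)
    (D.isCosetOp_levelHecke σ hw) (D.isCosetOp_levelHecke σ hw')
    (((Commute.refl (D.levelOpF σ)).mul_left (D.commute_levelOpF σ hw).symm).mul_right
      (D.commute_levelHecke σ hw hw')) 𝔇F

theorem isHermOp_levelHecke {w : HeightOneSpectrum (𝓞 S.F)} (hw : (S.m : 𝓞 S.F) ∉ w.asIdeal) :
    IsHermOp (D.levelOpF σ * LT.heckeOp (D.levelIdeal S.F) w) := by
  have h := isHermOp_map_prod (f := LT.heckeOp (D.levelIdeal S.F)) (l := [w])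
    (D.isCosetOp_levelOpF σ) (D.isHermOp_levelOpF σ)
    (fun a ha => by
      obtain rfl := List.mem_singleton.mp ha
      exact ⟨LT.isCosetOp_heckeOp (D.levelIdeal_ne_bot S.F) (D.not_levelIdeal_le hw),
        LT.isHermOp_heckeOp (D.levelIdeal_ne_bot S.F) (D.not_levelIdeal_le hw),
        D.commute_levelOpF σ hw⟩)
    fun a ha b hb => by rw [List.mem_singleton.mp ha, List.mem_singleton.mp hb]
  simpa using h

theorem heckeClm_symm {w : HeightOneSpectrum (𝓞 S.F)} (hw : (S.m : 𝓞 S.F) ∉ w.asIdeal)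
    (x y : 𝔇F.Space) : ⟪D.heckeClm σ 𝔇F w hw x, y⟫_ℂ = ⟪x, D.heckeClm σ 𝔇F w hw y⟫_ℂ :=
  LT.inner_clm_yKer 𝔇F (fun _ => LT.H3.isInvKer_ballKer 1) (fun _ => conj_ballKer 1)
    (D.isCosetOp_levelHecke σ hw) (D.isHermOp_levelHecke σ hw) x y

end Setup.Level

variable {S : Setup} {σ : S.F ≃+* S.F}

/-- A moved place has degree one over `K`. -/
theorem absNorm_eq_of_moved (hσ : S.IsGalGen σ) {w : HeightOneSpectrum (𝓞 S.F)}
    (hne : galPlace σ w ≠ w) : Ideal.absNorm w.asIdeal = Ideal.absNorm (S.underK w).asIdeal := by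
  rw [← CFT.natCard_quotient_eq_absNorm, ← CFT.natCard_quotient_eq_absNorm]
  refine (Nat.card_congr (Equiv.ofBijective
    (Ideal.quotientMap w.asIdeal S.inclInt (le_refl (w.asIdeal.comap S.inclInt)))
    ⟨Ideal.quotientMap_injective, fun q => ?_⟩)).symm
  obtain ⟨o, rfl⟩ := Ideal.Quotient.mk_surjective q
  obtain ⟨b, hb⟩ := surjective_residue_moved hσ hne o
  exact ⟨Ideal.Quotient.mk _ b, by
    rw [Ideal.quotientMap_mk]
    exact ((Ideal.Quotient.mk_eq_mk_iff_sub_mem o (S.inclInt b)).mpr hb).symm⟩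

/-- A good place which is not a letter is fixed. -/
theorem galPlace_eq_of_not_letter (hσ : S.IsGalGen σ) {w : HeightOneSpectrum (𝓞 S.F)}
    (hw : (S.m : 𝓞 S.F) ∉ w.asIdeal) (h : ¬ S.IsLetter w) : galPlace σ w = w :=
  by_contra fun hne => h ⟨hw, absNorm_eq_of_moved hσ hne⟩

/-- The conjugate of a letter is a letter. -/
theorem isLetter_galPlace (hσ : S.IsGalGen σ) {w : HeightOneSpectrum (𝓞 S.F)}
    (h : S.IsLetter w) : S.IsLetter (galPlace σ w) :=
  ⟨fun h' => h.1 ((LT.natCast_mem_galPlace σ w _).mp h'), by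
    rw [LT.absNorm_galPlace, S.underK_galPlace hσ]; exact h.2⟩

end FermatAgent.LTG

end
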