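import Mathlib
import Fermat.Agent.LT.General.Spectral.FSide.Galois
import Fermat.Agent.LT.General.Spectral.FSide.Ops
import Fermat.Agent.LT.General.Spectral.Smooth
import Fermat.Agent.LT.Descent.Spectral.Final.SmoothHecke

set_option autoImplicit false

/-!
# The joint eigenvectors on `F` are fixed by the automorphism
-/

noncomputable section

open MeasureTheory Filter NumberField IsDedekindDomain
open scoped ComplexConjugate MatrixGroups InnerProductSpace
open FermatAgent.LT (H3 YSpace yVol Cosets AutDomain unitKer placeKer galPlace galY galYEquiv galOp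
  IsYKernel)

namespace FermatAgent.LTG

variable {S : Setup} {D : S.Level} {σ : S.F ≃+* S.F}
  {w₁ : InfinitePlace S.K → InfinitePlace S.F} {t : HeightOneSpectrum (𝓞 S.F) → ℤ}

/-- A vector with the wanted eigenvalues outside `E`. -/
structure IsGoodVec (An : Annihilator S D σ w₁ t) (E : Set (HeightOneSpectrum (𝓞 S.F)))
    (𝔇F : AutDomain PGL(2, S.F) (yVol (D.levelIdeal S.F))) (v : 𝔇F.Space) : Prop where
  unit : Combo.OF D σ (Combo.single (KWord.unitW S)) 𝔇F v = unitMean S.F • v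
  ball : ∀ (w : InfinitePlace S.F) (q : ℚ), 0 < q →
    Combo.OF D σ (Combo.single (KWord.ballW w (q : ℝ))) 𝔇F v =
      ((H3.sph0 q : ℂ) * unitMean S.F) • v
  hecke : ∀ w (hw : S.IsLetter w), w ∉ E →
    Combo.OF D σ (Combo.single (KWord.heckeW w hw)) 𝔇F v = (lamOf t w * unitMean S.F) • v
  annih : Combo.OF D σ An.A 𝔇F v = (An.α : ℂ) • v

variable {An : Annihilator S D σ w₁ t}
  {𝔇F : AutDomain PGL(2, S.F) (yVol (D.levelIdeal S.F))}

theorem IsGoodVec.smul {E : Set (HeightOneSpectrum (𝓞 S.F))} {v : 𝔇F.Space}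
    (h : IsGoodVec An E 𝔇F v) (r : ℂ) : IsGoodVec An E 𝔇F (r • v) where
  unit := by rw [map_smul, h.unit, smul_comm]
  ball w q hq := by rw [map_smul, h.ball w q hq, smul_comm]
  hecke w hw hE := by rw [map_smul, h.hecke w hw hE, smul_comm]
  annih := by rw [map_smul, h.annih, smul_comm]

/-- The function of a joint eigenvector. -/
theorem IsGoodVec.exists_formFun (hσ : S.IsGalGen σ) (ht : S.IsTrace t)
    [IsFiniteMeasure ((yVol (D.levelIdeal S.F)).restrict 𝔇F.carrier)] {v : 𝔇F.Space} (hv0 : v ≠ 0)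
    (hv : IsGoodVec An ∅ 𝔇F v)
    (hT : ∀ w hw, ∃ r : ℂ, D.heckeClm σ 𝔇F w hw v = r • v) :
    ∃ (l : HeightOneSpectrum (𝓞 S.F) → ℂ) (Φ : YSpace (D.levelIdeal S.F) → ℂ),
      𝔇F.lift v =ᵐ[yVol (D.levelIdeal S.F)] Φ ∧ IsFormFun D σ l Φ ∧
      ∀ w, (S.m : 𝓞 S.F) ∉ w.asIdeal → l (galPlace σ w) = l w := by
  classical
  set c := unitMean S.F with hc_def
  have hc : c ≠ 0 := unitMean_ne_zero S.F
  have hL := D.isCosetOp_levelOpF σ
  have hfin : yVol (D.levelIdeal S.F) 𝔇F.carrier < ⊤ := by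
    simpa using measure_lt_top ((yVol (D.levelIdeal S.F)).restrict 𝔇F.carrier) Set.univ
  have hunit : (LT.isYKernel_unitKer hL).clm 𝔇F v = c • v := by
    rw [← hv.unit, Combo.OF]
    exact congrArg (fun f : 𝔇F.Space →L[ℂ] 𝔇F.Space => f v)
      (clm_congr' 𝔇F _ _ (by rw [Combo.kerF_single, KWord.kerF_unitW]))
  obtain ⟨Φ, hΦ, hlift, hA⟩ := exists_smooth_kernel 𝔇F hfin hL (Combo.isYKernel_kerF D σ An.A)
    An.boundF
    (Combo.yConv_yKer_commF D σ (fun _ => LT.H3.isInvKer_ballKer 1) hL (Commute.refl _)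
      (fun _ hw => D.commute_levelOpF σ hw) An.A).symm
    (Complex.ofReal_ne_zero.mpr An.α_ne_zero) hc hunit hv.annih
  have hsph : ∀ (w : InfinitePlace S.F) x q, letI := Classical.decEq (InfinitePlace S.F)
      H3.IsSph0 fun P => Φ (Function.update x w P, q) :=
    hΦ.isSph0 𝔇F hc hL hlift fun w ε hε => by
      rw [← hv.ball w ε (by exact_mod_cast hε), Combo.OF]
      exact congrArg (fun f : 𝔇F.Space →L[ℂ] 𝔇F.Space => f v)
        (clm_congr' 𝔇F _ _ (by rw [Combo.kerF_single, KWord.kerF_ballW]))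
  have hcusp := An.cuspF Φ _ (Complex.ofReal_ne_zero.mpr An.α_ne_zero) hΦ.measurable hΦ.invariant
    hΦ.bounded hΦ.continuous hsph hA
  choose r hr using hT
  let l : HeightOneSpectrum (𝓞 S.F) → ℂ := fun w =>
    if hw : (S.m : 𝓞 S.F) ∉ w.asIdeal then r w hw / c / (Real.sqrt (Ideal.absNorm w.asIdeal) : ℂ)
    else 0
  have hsq : ∀ w : HeightOneSpectrum (𝓞 S.F), (Real.sqrt (Ideal.absNorm w.asIdeal) : ℂ) ≠ 0 :=
    fun w => by
      rw [Complex.ofReal_ne_zero, Real.sqrt_ne_zero', Nat.cast_pos]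
      exact Nat.pos_of_ne_zero (Ideal.absNorm_eq_zero_iff.not.mpr w.ne_bot)
  have hlet : ∀ w, S.IsLetter w → l w = (t w : ℂ) := fun w hw => by
    have h1 := hr w hw.1
    rw [D.heckeClm_eq_OF σ 𝔇F hw, hv.hecke w hw (Set.notMem_empty w)] at h1
    have h2 := smul_left_injective ℂ hv0 h1
    have hs := hsq w
    simp only [l, dif_pos hw.1, ← h2, lamOf]
    rw [show unitMean S.F = c from rfl]
    push_cast
    field_simp
  refine ⟨l, Φ, hlift, ⟨hcusp, hΦ.apply_op hc hL (D.levelOpF_idem σ), fun w hw x => ?_⟩,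
    fun w hw => ?_⟩
  · funext q
    have hs := hsq w
    rw [hΦ.op_eq_smul 𝔇F hc hL
      (LT.isCosetOp_heckeOp (D.levelIdeal_ne_bot S.F) (D.not_levelIdeal_le hw))
      (D.commute_levelOpF σ hw) hlift (r := r w hw / c)
      (by rw [div_mul_cancel₀ _ hc]; exact hr w hw) x q]
    simp only [l, dif_pos hw]
    field_simp
  · by_cases hlw : S.IsLetter w
    · rw [hlet w hlw, hlet _ (isLetter_galPlace hσ hlw), ht.gal σ w hw]
    · rw [galPlace_eq_of_not_letter hσ hw hlw]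

/-- **A joint eigenvector is fixed by the automorphism.** -/
theorem IsGoodVec.galOp_eq_self (hσ : S.IsGalGen σ) (ht : S.IsTrace t)
    [IsFiniteMeasure ((yVol (D.levelIdeal S.F)).restrict 𝔇F.carrier)] {v : 𝔇F.Space} (hv0 : v ≠ 0)
    (hv : IsGoodVec An ∅ 𝔇F v) (hT : ∀ w hw, ∃ r : ℂ, D.heckeClm σ 𝔇F w hw v = r • v) :
    galOp (D.levelIdeal_map σ) 𝔇F v = v := by
  obtain ⟨l, Φ, hlift, hΦ, hl⟩ := hv.exists_formFun hσ ht hv0 hT
  set e := galYEquiv (D.levelIdeal_map σ)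
  have hinv : ∀ y, Φ (e.symm y) = Φ y := fun y => by
    rw [← hΦ.eq_gal hσ hl (e.symm y), ← LT.galYEquiv_apply (D.levelIdeal_map σ),
      MeasurableEquiv.apply_symm_apply]
  have h1 := LT.lift_galOp_ae (D.levelIdeal_map σ) 𝔇F v
  have h2 := ((LT.measurePreserving_galYEquiv (D.levelIdeal_map σ)).symm e).quasiMeasurePreserving.ae
    hlift
  refine Lp.ext ?_
  filter_upwards [𝔇F.lift_ae_restrict (galOp (D.levelIdeal_map σ) 𝔇F v), ae_restrict_of_ae h1,
    ae_restrict_of_ae h2, 𝔇F.lift_ae_restrict v, ae_restrict_of_ae hlift] with y a1 a2 a3 a4 a5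
  rw [← a1, a2, a3, hinv, ← a5, a4]

end FermatAgent.LTG

end
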