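import Mathlib
import Fermat.Agent.LT.General.Spectral.FSide.Vector

set_option autoImplicit false

/-!
# The common kernel on `F`
-/

noncomputable section

open MeasureTheory NumberField IsDedekindDomain
open scoped ComplexConjugate MatrixGroups InnerProductSpace
open FermatAgent.LT (H3 YSpace yVol AutDomain galOp)

namespace FermatAgent.LTG

variable {S : Setup}

/-- A vector with the wanted eigenvalues except for the signs over `v`. -/
def IsFlipAt {D : S.Level} {σ : S.F ≃+* S.F} {w₁ : InfinitePlace S.K → InfinitePlace S.F}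
    {t : HeightOneSpectrum (𝓞 S.F) → ℤ} (An : Annihilator S D σ w₁ t)
    (𝔇F : AutDomain PGL(2, S.F) (yVol (D.levelIdeal S.F))) (v : HeightOneSpectrum (𝓞 S.K))
    (f : 𝔇F.Space) : Prop :=
  IsGoodVec An {w | S.underK w = v} 𝔇F f ∧
    ∀ w (hw : S.IsLetter w), S.underK w = v →
      Combo.OF D σ (Combo.single (KWord.heckeW w hw)) 𝔇F f = (-(lamOf t w * unitMean S.F)) • f

/-- In an infinite set of places one admits no flipped vector. -/
theorem exists_noFlipAt {D : S.Level} {σ : S.F ≃+* S.F} {w₁ : InfinitePlace S.K → InfinitePlace S.F}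
    {t : HeightOneSpectrum (𝓞 S.F) → ℤ} (An : Annihilator S D σ w₁ t)
    (𝔇F : AutDomain PGL(2, S.F) (yVol (D.levelIdeal S.F)))
    [IsFiniteMeasure ((yVol (D.levelIdeal S.F)).restrict 𝔇F.carrier)]
    {C : Set (HeightOneSpectrum (𝓞 S.K))} (hC : C.Infinite)
    (hC' : ∀ v ∈ C, ∀ w, S.underK w = v → S.IsLetter w ∧ t w ≠ 0) :
    ∃ v ∈ C, ∀ f, IsFlipAt An 𝔇F v f → f = 0 := by
  by_contra hno
  push Not at hno
  obtain ⟨ι, e, -⟩ := exists_hilbertBasis ℂ 𝔇F.Space
  set A := Combo.OF D σ An.A 𝔇F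
  have hsum : Summable fun i => ‖A (e i)‖ ^ 2 :=
    (Combo.hasKernelF D σ An.A 𝔇F An.boundF).summable_norm_sq e
  obtain ⟨n, hn⟩ := exists_nat_gt ((∑' i, ‖A (e i)‖ ^ 2) / ‖(An.α : ℂ)‖ ^ 2)
  let pick : Fin n → HeightOneSpectrum (𝓞 S.K) := fun i => (hC.natEmbedding _ i).1
  have hpick : Function.Injective pick := fun i j h =>
    Fin.ext ((hC.natEmbedding _).injective (Subtype.ext h))
  choose v hv hv0 using fun i => hno (pick i) (hC.natEmbedding _ i).2
  set u : Fin n → 𝔇F.Space := fun i => (‖v i‖⁻¹ : ℂ) • v i with hu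
  have horth : Orthonormal ℂ u := by
    refine ⟨fun i => norm_smul_inv_norm (hv0 i), fun i j hij => ?_⟩
    obtain ⟨w, hw⟩ := S.exists_place_over (pick i)
    obtain ⟨hlw, htw⟩ := hC' _ (hC.natEmbedding _ i).2 w hw
    have h1 := Combo.OF_symm D σ (Combo.single (KWord.heckeW w hlw)) 𝔇F (v i) (v j)
    rw [(hv i).2 w hlw hw, (hv j).1.hecke w hlw fun h => hij (hpick (hw.symm.trans h)),
      inner_smul_left, inner_smul_right, map_neg, map_mul, conj_lamOf, conj_unitMean, neg_mul,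
      ← sub_eq_zero] at h1
    have h2 : (2 * (lamOf t w * unitMean S.F)) * ⟪v i, v j⟫_ℂ = 0 := by linear_combination -h1
    simp only [hu]
    rw [inner_smul_left, inner_smul_right,
      (mul_eq_zero.mp h2).resolve_left (mul_ne_zero two_ne_zero
        (mul_ne_zero (lamOf_ne_zero htw) (unitMean_ne_zero S.F))), mul_zero, mul_zero]
  have hA : ∀ i, A (u i) = (An.α : ℂ) • u i := fun i => ((hv i).1.smul _).annih
  have := LT.Joint.card_le_of_orthonormal hsum (Combo.OF_symm D σ An.A 𝔇F) horth hA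
  rw [div_lt_iff₀ (pow_pos (norm_pos_iff.mpr (Complex.ofReal_ne_zero.mpr An.α_ne_zero)) 2)] at hn
  linarith

/-- The automorphism preserves the norm. -/
theorem norm_galOp {L : Type*} [Field L] [NumberField L] {𝔫 : Ideal (𝓞 L)} [Fact (𝔫 ≠ ⊥)]
    {σ : L ≃+* L} (hσ : 𝔫.map (LT.galInt σ) = 𝔫) (𝔇 : AutDomain PGL(2, L) (yVol 𝔫))
    (φ : 𝔇.Space) : ‖galOp hσ 𝔇 φ‖ = ‖φ‖ := by
  refine (Lp.norm_toLp _ (LT.memLp_gal hσ 𝔇 φ)).trans ?_
  rw [eLpNorm_eq_lintegral_rpow_enorm_toReal two_ne_zero ENNReal.ofNat_ne_top]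
  simp only [ENNReal.toReal_ofNat, one_div, ENNReal.rpow_two]
  rw [LT.lintegral_gal hσ 𝔇.isFund (F := fun y => ‖𝔇.lift φ y‖ₑ ^ 2)
    (fun γ y => by rw [𝔇.lift_invariant]), 𝔇.lintegral_lift, ← ENNReal.rpow_natCast,
    ← ENNReal.rpow_mul]
  norm_num

namespace DescentData

variable (P : DescentData S) (𝔇F : AutDomain PGL(2, S.F) (yVol (P.D.levelIdeal S.F)))
  (𝔇K : AutDomain PGL(2, S.K) (yVol (P.D.levelIdeal S.K)))

/-- A good vector is in the common kernel. -/
theorem mem_kerF_of_good {v : 𝔇F.Space} (hv : IsGoodVec P.An ∅ 𝔇F v) :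
    v ∈ LT.Joint.kerAll (P.XF 𝔇F 𝔇K) := by
  refine (P.mem_kerF 𝔇F 𝔇K).mpr fun j => ?_
  rcases j with _ | p | w | ww | _
  · exact hv.unit
  · exact hv.ball p.1 _ p.2.2
  · exact hv.hecke w.1 w.2.1 (Set.notMem_empty _)
  · have h1 := hv.hecke ww.1.1 (P.letter _ ww.1.2) (Set.notMem_empty _)
    have h2 := hv.hecke ww.2.1 (P.letter _ ww.2.2) (Set.notMem_empty _)
    have e : Combo.single ((KWord.heckeW ww.1.1 (P.letter _ ww.1.2)).mul
        (KWord.heckeW ww.2.1 (P.letter _ ww.2.2))) =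
        Combo.mul (Combo.single (KWord.heckeW ww.1.1 (P.letter _ ww.1.2)))
          (Combo.single (KWord.heckeW ww.2.1 (P.letter _ ww.2.2))) := by
      simp [Combo.mul, Combo.single]
    simp only [combo, scal, e]
    rw [← Combo.OF_mul, LT.StrongLimit.mulv, h2, map_smul, h1, smul_smul]
    congr 1
    ring
  · exact hv.annih

variable {𝔇F}

/-- In the absence of flipped vectors the common kernel consists of good vectors. -/
theorem good_of_mem_kerF (hflip : ∀ f, IsFlipAt P.An 𝔇F P.v₀ f → f = 0) {u : 𝔇F.Space}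
    (hu : u ∈ LT.Joint.kerAll (P.XF 𝔇F 𝔇K)) : IsGoodVec P.An ∅ 𝔇F u := by
  have heq := (P.mem_kerF 𝔇F 𝔇K).mp hu
  set c := unitMean S.F with hc_def
  have hout : IsGoodVec P.An {w | S.underK w = P.v₀} 𝔇F u :=
    ⟨heq (Sum.inl ()), fun w q hq => heq (Sum.inr (Sum.inl (w, ⟨q, hq⟩))),
      fun w hw hE => heq (Sum.inr (Sum.inr (Sum.inl ⟨w, hw, hE⟩))),
      heq (Sum.inr (Sum.inr (Sum.inr (Sum.inr ()))))⟩
  set T := Combo.OF P.D P.σ (Combo.single (KWord.heckeW P.w₀ P.letter_w₀)) 𝔇F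
  set r := lamOf P.t P.w₀ * c
  have hr : r ≠ 0 := mul_ne_zero (lamOf_ne_zero (P.t_ne_zero _ P.w₀_over)) (unitMean_ne_zero S.F)
  have hpair : ∀ w (hw : S.IsLetter w) w' (hw' : S.IsLetter w'), S.underK w = P.v₀ →
      S.underK w' = P.v₀ →
      Combo.OF P.D P.σ (Combo.single (KWord.heckeW w hw)) 𝔇F
          (Combo.OF P.D P.σ (Combo.single (KWord.heckeW w' hw')) 𝔇F u) =
        (lamOf P.t w * c * (lamOf P.t w' * c)) • u := by
    intro w hw w' hw' h h'
    have h1 := heq (Sum.inr (Sum.inr (Sum.inr (Sum.inl (⟨w, h⟩, ⟨w', h'⟩)))))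
    rw [← LT.StrongLimit.mulv, Combo.OF_mul]
    simpa [combo, scal, Combo.mul, Combo.single] using h1
  have hcomm : ∀ A : Combo S, ∀ y, Combo.OF P.D P.σ A 𝔇F (T y) = T (Combo.OF P.D P.σ A 𝔇F y) :=
    fun A y => by
      rw [← LT.StrongLimit.mulv, (Combo.commute_OF P.D P.σ _ _ 𝔇F).eq, LT.StrongLimit.mulv]
  -- the flipped part
  have hz : T u - r • u = 0 := hflip _ ⟨⟨by
        rw [map_sub, map_smul, hcomm, hout.unit, map_smul, smul_sub, smul_comm],
      fun w q hq => by rw [map_sub, map_smul, hcomm, hout.ball w q hq, map_smul, smul_sub, smul_comm],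
      fun w hw hE => by
        rw [map_sub, map_smul, hcomm, hout.hecke w hw hE, map_smul, smul_sub, smul_comm],
      by rw [map_sub, map_smul, hcomm, hout.annih, map_smul, smul_sub, smul_comm]⟩,
    fun w hw hwv => by
      have hcw := hpair w hw _ P.letter_w₀ hwv P.w₀_over
      have hT2 : T (T u) = (r * r) • u := hpair _ P.letter_w₀ _ P.letter_w₀ P.w₀_over P.w₀_over
      have h1 : Combo.OF P.D P.σ (Combo.single (KWord.heckeW w hw)) 𝔇F u =
          (lamOf P.t w * c * r⁻¹) • T u := by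
        have h3 := hcomm (Combo.single (KWord.heckeW w hw)) (T u)
        rw [hT2, map_smul, hcw, map_smul] at h3
        refine smul_right_injective _ (mul_ne_zero hr hr) ?_
        dsimp only
        rw [h3, smul_smul]
        congr 1
        field_simp
        simp only [r]
        ring
      rw [map_sub, map_smul, hcw, h1, smul_smul,
        show r * (lamOf P.t w * c * r⁻¹) = lamOf P.t w * c by field_simp]
      simp only [r, c]
      module⟩
  refine ⟨hout.unit, hout.ball, fun w hw _ => ?_, hout.annih⟩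
  by_cases hwv : S.underK w = P.v₀
  · have h1 := hpair w hw _ P.letter_w₀ hwv P.w₀_over
    rw [show Combo.OF P.D P.σ (Combo.single (KWord.heckeW P.w₀ P.letter_w₀)) 𝔇F u = r • u from
      sub_eq_zero.mp hz, map_smul] at h1
    refine smul_right_injective _ hr ?_
    dsimp only
    rw [h1, smul_smul]
    congr 1
    ring
  · exact hout.hecke w hw hwv

end DescentData

end FermatAgent.LTG

end
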