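import Mathlib
import Fermat.Agent.LT.General.Spectral.FSide.Space
import Fermat.Agent.LT.General.Spectral.Translate

set_option autoImplicit false

/-!
# The form of the type of the box group as a vector
-/

noncomputable section

open MeasureTheory Filter NumberField IsDedekindDomain
open scoped ComplexConjugate MatrixGroups InnerProductSpace
open FermatAgent.LT (H3 XInf GAf YSpace yVol yOp Cosets AutDomain IsCuspFn IsEigenAt HasExpansion
  diagW IsFrobOver q8Trace rationalMat heckeWord)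

namespace FermatAgent.LTG

/-- An equation of a kernel on a function, on its vector. -/
theorem clm_eq_smul_of_yOp {L : Type*} [Field L] [NumberField L] {𝔫 : Ideal (𝓞 L)} [Fact (𝔫 ≠ ⊥)]
    (𝔇 : AutDomain PGL(2, L) (yVol 𝔫)) {k : YSpace 𝔫 → YSpace 𝔫 → ℂ} (hk : LT.IsYKernel k)
    {Φ : YSpace 𝔫 → ℂ} {v : 𝔇.Space} (hv : 𝔇.lift v =ᵐ[yVol 𝔫] Φ) {s : ℂ}
    (hop : ∀ y, yOp k Φ y = s * Φ y) : hk.clm 𝔇 v = s • v := by
  have hlift : 𝔇.lift (hk.clm 𝔇 v) =ᵐ[yVol 𝔫] fun y => s * Φ y :=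
    (hk.lift_clm_ae 𝔇 v).trans ((AutDomain.op_congr_ae (T := LT.yTransport L 𝔫)
      (W := Function.uncurry k) hv).trans (Eventually.of_forall hop))
  refine Lp.ext ?_
  filter_upwards [𝔇.lift_ae_restrict (hk.clm 𝔇 v), ae_restrict_of_ae hlift, Lp.coeFn_smul s v,
    𝔇.lift_ae_restrict v, ae_restrict_of_ae hv] with y h1 h2 h3 h4 h5
  rw [← h1, h2, h3, Pi.smul_apply, ← h4, h5, smul_eq_mul]

variable {S : Setup} {D : S.Level} {σ : S.F ≃+* S.F}

theorem m_notMem_of_prime {p : ℕ} (hp : p.Prime) (hpm : ¬ p ∣ S.m)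
    {w : HeightOneSpectrum (𝓞 S.F)} (hw : (p : 𝓞 S.F) ∈ w.asIdeal) :
    (S.m : 𝓞 S.F) ∉ w.asIdeal := fun hm => by
  refine w.isPrime.ne_top ((Ideal.eq_top_iff_one _).mpr ?_)
  obtain ⟨a, b, hab⟩ := Int.isCoprime_iff_nat_coprime.mpr
    (show ((p : ℤ)).natAbs.Coprime ((S.m : ℤ)).natAbs by
      simpa using hp.coprime_iff_not_dvd.mpr hpm)
  have h := congrArg (Int.cast : ℤ → 𝓞 S.F) hab
  push_cast at h
  rw [← h]
  exact add_mem (Ideal.mul_mem_left _ _ hw) (Ideal.mul_mem_left _ _ hm)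

/-- **The space of good vectors is not zero.** -/
theorem exists_goodVec_ne_zero {w₁ : InfinitePlace S.K → InfinitePlace S.F}
    {t : HeightOneSpectrum (𝓞 S.F) → ℤ} (An : Annihilator S D σ w₁ t) (ht : S.IsTrace t)
    (𝔇F : AutDomain PGL(2, S.F) (yVol (D.levelIdeal S.F)))
    [IsFiniteMeasure ((yVol (D.levelIdeal S.F)).restrict 𝔇F.carrier)]
    {H : XInf S.F → GAf S.F → ℂ} (hH : IsCuspFn (D.levelIdeal S.F) H) (hH0 : H ≠ 0)
    (hchi : ∀ M ∈ (D.boxF σ).resSet, ∀ x g,
      H x (g * (D.boxF σ).lift M) = (D.boxF σ).chi M * H x g)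
    (heig : ∀ w, (S.m : 𝓞 S.F) ∉ w.asIdeal → ∀ τ, IsFrobOver w τ →
      IsEigenAt w H (q8Trace (S.ρ τ) : ℂ)) :
    ∃ v : 𝔇F.Space, v ≠ 0 ∧ IsGoodVec An ∅ 𝔇F v := by
  classical
  set Φ : YSpace (D.levelIdeal S.F) → ℂ := fun y => H y.1 y.2.out with hΦdef
  have hΦ : ∀ x (g : GAf S.F), Φ (x, (g : Cosets (D.levelIdeal S.F))) = H x g :=
    coset_out_eq hH.level hH.central
  have hcont : ∀ q, Continuous fun x => Φ (x, q) := fun q => hH.continuous q.out
  obtain ⟨C, hC⟩ := hH.bounded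
  have hC' : ∀ y, ‖Φ y‖ ≤ C := fun y => hC _ _
  have hm : Measurable Φ := measurable_from_prod_countable_left fun q => (hcont q).measurable
  have hinv : ∀ (γ : PGL(2, S.F)) y, Φ (γ • y) = Φ y := fun γ y => by
    induction γ using Matrix.ProjGenLinGroup.induction_on with | mk γ =>
    obtain ⟨x, q⟩ := y
    induction q using QuotientGroup.induction_on with | H g =>
    rw [LT.mk_smul, hΦ]
    exact (hΦ _ (rationalMat γ * g)).trans (hH.rational γ x g)
  have hlev : ∀ x, D.levelOpF σ (fun p => Φ (x, p)) = fun p => Φ (x, p) := fun x =>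
    (D.levelOpF_eq_self_iff σ).mpr fun M hM g => by simp only [hΦ]; exact hchi M hM x g
  have hsph : ∀ (w : InfinitePlace S.F) x q, H3.IsSph0 fun P => Φ (Function.update x w P, q) :=
    fun w x q => by
      induction q using QuotientGroup.induction_on with | H g =>
      simp only [hΦ]
      exact hH.sph0 w x g
  have hhecke : ∀ w, (S.m : 𝓞 S.F) ∉ w.asIdeal → ∀ x,
      LT.heckeOp (D.levelIdeal S.F) w (fun p => Φ (x, p)) = fun p => lamOf t w * Φ (x, p) := by
    intro w hw x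
    funext q
    induction q using QuotientGroup.induction_on with | H g =>
    obtain ⟨τ, hτ⟩ := LT.exists_isFrobOver S.F w
    rw [LT.heckeOp_mk (D.levelIdeal_ne_bot S.F) (D.not_levelIdeal_le hw) _ g x, hΦ]
    have e := heig w hw τ hτ x g
    simp only [LT.heckeT, hΦ] at e ⊢
    rw [e, ht.frob w hw τ hτ, lamOf]
    push_cast
    ring
  have hA := An.eigen Φ ⟨hm, ⟨C, hC'⟩, hlev,
    fun w hw => hhecke w (m_notMem_of_prime An.p_prime An.p_good hw), hsph⟩
  have hball : ∀ (w : InfinitePlace S.F) x P q (ε : ℝ), 0 < ε →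
      ∫ Q, H3.ballKer ε P Q * Φ (Function.update x w Q, q) ∂H3.vol =
        (H3.sph0 ε : ℂ) * Φ (Function.update x w P, q) := fun w x P q ε hε => by
    rw [H3.integral_ballKer_mul]
    exact hsph w x q P ε hε
  set c := unitMean S.F with hc
  have hword : ∀ (x : KWord S) (a : InfinitePlace S.F → ℂ) (r : ℂ),
      (∀ z, heckeWord (D.levelIdeal S.F) x.pl (fun p => Φ (z, p)) = fun p => r * Φ (z, p)) →
      (∀ w z P q, ∫ Q, x.ker w P Q * Φ (Function.update z w Q, q) ∂H3.vol =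
        a w * Φ (Function.update z w P, q)) →
      ∀ y, yOp (Combo.kerF D σ (Combo.single x)) Φ y = (∏ w, a w) * r * Φ y := by
    intro x a r hr ha y
    rw [Combo.kerF_single, KWord.kerF_eq]
    refine LT.yOp_yKer_mean x.inv x.isCosetOp_opF hm hC' (fun z => ?_) ha y.1 y.2
    rw [KWord.opF, Module.End.mul_apply, hr,
      show (fun p => r * Φ (z, p)) = r • fun p => Φ (z, p) from rfl, map_smul, hlev]
  have hpow : ∏ _w : InfinitePlace S.F, (H3.sph0 1 : ℂ) = c := by
    simp [hc, unitMean, Finset.card_univ]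
  have hΦ0 : ¬ Φ =ᵐ[yVol (D.levelIdeal S.F)] 0 := fun h0 => hH0 (funext fun x => funext fun g => by
    rw [← hΦ, LT.eq_of_ae_eq_continuous hcont (fun _ => continuous_const) (F' := fun _ => 0) h0]
    rfl)
  have hmem : MemLp Φ 2 ((yVol (D.levelIdeal S.F)).restrict 𝔇F.carrier) :=
    MemLp.of_bound hm.aestronglyMeasurable C (Eventually.of_forall hC')
  have hv : 𝔇F.lift (hmem.toLp Φ) =ᵐ[yVol (D.levelIdeal S.F)] Φ :=
    𝔇F.lift_ae_of_eq hinv hmem.coeFn_toLp
  refine ⟨hmem.toLp Φ, fun h0 => ?_, ⟨?_, fun w q hq => ?_, fun w hw _ => ?_, ?_⟩⟩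
  · rw [h0] at hv
    exact hΦ0 (hv.symm.trans (𝔇F.lift_ae_of_eq (fun _ _ => rfl) (Lp.coeFn_zero _ _ _)))
  · refine clm_eq_smul_of_yOp 𝔇F _ hv fun y => ?_
    rw [hword (KWord.unitW S) (fun _ => (H3.sph0 1 : ℂ)) 1
      (fun z => by simp [KWord.unitW, heckeWord])
      (fun w z P q => hball w z P q 1 one_pos) y, hpow, mul_one]
  · refine clm_eq_smul_of_yOp 𝔇F _ hv fun y => ?_
    rw [hword (KWord.ballW w (q : ℝ))
      (Function.update (fun _ => (H3.sph0 1 : ℂ)) w ((H3.sph0 q : ℂ) * H3.sph0 1)) 1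
      (fun z => by simp [KWord.ballW, heckeWord]) (fun u z P p => ?_) y, mul_one]
    · congr 1
      rw [Finset.prod_update_of_mem (Finset.mem_univ w), show unitMean S.F = c from rfl, ← hpow,
        ← Finset.mul_prod_erase Finset.univ _ (Finset.mem_univ w), mul_assoc,
        Finset.erase_eq]
    · rcases eq_or_ne u w with rfl | hu
      · simp only [KWord.ballW, Function.update_self]
        exact H3.mean_kConv (H3.isInvKer_ballKer _) (H3.isInvKer_ballKer 1)
          (hm.comp ((measurable_update z).prodMk measurable_const)) (fun Q => hC' _)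
          (fun U => hball u z U p _ (by exact_mod_cast hq)) (fun U => hball u z U p 1 one_pos) P
      · simp only [KWord.ballW, Function.update_of_ne hu]
        exact hball u z P p 1 one_pos
  · refine clm_eq_smul_of_yOp 𝔇F _ hv fun y => ?_
    rw [hword (KWord.heckeW w hw) (fun _ => (H3.sph0 1 : ℂ)) (lamOf t w)
      (fun z => by simpa [KWord.heckeW, heckeWord] using hhecke w hw.1 z)
      (fun u z P q => hball u z P q 1 one_pos) y, hpow]
    ring
  · exact clm_eq_smul_of_yOp 𝔇F _ hv hA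

end FermatAgent.LTG

end
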