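import Mathlib
import Fermat.Agent.LT.General.Spectral.FSide.Space

set_option autoImplicit false

/-!
# The pairing on `F` is not zero

On the common kernel the automorphism is the identity, so the twisted trace is the dimension.
-/

noncomputable section

open MeasureTheory NumberField IsDedekindDomain
open scoped ComplexConjugate MatrixGroups InnerProductSpace
open FermatAgent.LT (YSpace yVol AutDomain galOp)

namespace FermatAgent.LTG

variable {S : Setup}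

namespace DescentData

variable (P : DescentData S) {𝔇F : AutDomain PGL(2, S.F) (yVol (P.D.levelIdeal S.F))}
  (𝔇K : AutDomain PGL(2, S.K) (yVol (P.D.levelIdeal S.K)))
  [IsFiniteMeasure ((yVol (P.D.levelIdeal S.F)).restrict 𝔇F.carrier)]

theorem finiteDimensional_kerF :
    FiniteDimensional ℂ (LT.Joint.kerAll (P.XF 𝔇F 𝔇K)) := by
  obtain ⟨ι, e, -⟩ := exists_hilbertBasis ℂ 𝔇F.Space
  exact LT.Joint.finiteDimensional_scalar
    ((Combo.hasKernelF P.D P.σ P.An.A 𝔇F P.An.boundF).summable_norm_sq e)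
    (Combo.OF_symm P.D P.σ P.An.A 𝔇F) (Complex.ofReal_ne_zero.mpr P.An.α_ne_zero)
    fun u hu => (P.mem_kerF 𝔇F 𝔇K).mp hu (Sum.inr (Sum.inr (Sum.inr (Sum.inr ()))))

/-- **The automorphism fixes the common kernel.** -/
theorem galOp_eq_self (ht : S.IsTrace P.t) (hflip : ∀ f, IsFlipAt P.An 𝔇F P.v₀ f → f = 0)
    {v : 𝔇F.Space} (hv : v ∈ LT.Joint.kerAll (P.XF 𝔇F 𝔇K)) :
    galOp (P.D.levelIdeal_map P.σ) 𝔇F v = v := by
  set V := LT.Joint.kerAll (P.XF 𝔇F 𝔇K)
  have := P.finiteDimensional_kerF (𝔇F := 𝔇F) 𝔇K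
  let J := {w : HeightOneSpectrum (𝓞 S.F) // (S.m : 𝓞 S.F) ∉ w.asIdeal}
  let T : J → 𝔇F.Space →L[ℂ] 𝔇F.Space := fun w => P.D.heckeClm P.σ 𝔇F w.1 w.2
  let E : Set 𝔇F.Space := {u | u ∈ V ∧ ∀ w : J, ∃ r : ℂ, T w u = r • u}
  have hW : Submodule.span ℂ E ≤ V := Submodule.span_le.mpr fun u hu => hu.1
  have : FiniteDimensional ℂ (Submodule.span ℂ E) := Submodule.finiteDimensional_of_le hW
  have hTs : ∀ (w : J) x y, ⟪T w x, y⟫_ℂ = ⟪x, T w y⟫_ℂ :=
    fun w => P.D.heckeClm_symm P.σ 𝔇F w.2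
  have hTV : ∀ w, ∀ u ∈ V, T w u ∈ V := fun w u hu => (P.mem_kerF 𝔇F 𝔇K).mpr fun j => by
    simp only [T]
    rw [← LT.StrongLimit.mulv, (P.D.commute_OF_heckeClm P.σ 𝔇F (P.combo j) w.2).eq,
      LT.StrongLimit.mulv, (P.mem_kerF 𝔇F 𝔇K).mp hu j, map_smul]
  have hTW : ∀ w, ∀ u ∈ Submodule.span ℂ E, T w u ∈ Submodule.span ℂ E := fun w u hu => by
    induction hu using Submodule.span_induction with
    | mem x hx =>
      obtain ⟨r, hr⟩ := hx.2 w
      rw [hr]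
      exact Submodule.smul_mem _ r (Submodule.subset_span hx)
    | zero => rw [map_zero]; exact zero_mem _
    | add x y _ _ hx hy => rw [map_add]; exact add_mem hx hy
    | smul a x _ hx => rw [map_smul]; exact Submodule.smul_mem _ a hx
  set U := (Submodule.span ℂ E)ᗮ ⊓ V
  have : FiniteDimensional ℂ U := Submodule.finiteDimensional_of_le inf_le_right
  have hU : U = ⊥ := by
    by_contra hU
    obtain ⟨u, hu, hu0, hr⟩ := LT.Joint.exists_joint_eigen hTs hU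
      (fun w u hu => ⟨fun x hx => by
          rw [← hTs]; exact hu.1 _ (hTW w x hx), hTV w u hu.2⟩)
      (fun i j u _ => by
        rw [← LT.StrongLimit.mulv, (P.D.commute_heckeClm P.σ 𝔇F i.2 j.2).eq, LT.StrongLimit.mulv])
    refine hu0 (inner_self_eq_zero (𝕜 := ℂ) |>.mp (hu.1 u (Submodule.subset_span
      ⟨hu.2, fun w => ?_⟩)))
    obtain ⟨r, hr'⟩ := hr w
    exact ⟨_, hr'⟩
  have heq : V = Submodule.span ℂ E := by
    have h := Submodule.sup_orthogonal_inf_of_hasOrthogonalProjection hW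
    rw [show (Submodule.span ℂ E)ᗮ ⊓ V = ⊥ from hU, sup_bot_eq] at h
    exact h.symm
  rw [heq] at hv
  induction hv using Submodule.span_induction with
  | mem x hx =>
    rcases eq_or_ne x 0 with rfl | hx0
    · rw [map_zero]
    · exact (P.good_of_mem_kerF 𝔇K hflip hx.1).galOp_eq_self P.isGen ht hx0
        fun w hw => hx.2 ⟨w, hw⟩
  | zero => rw [map_zero]
  | add x y _ _ hx hy => rw [map_add, hx, hy]
  | smul a x _ hx => rw [map_smul, hx]

/-- **The pairing on `F` is not zero.** -/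
theorem pairing_F_ne_zero (ht : S.IsTrace P.t)
    (hflip : ∀ f, IsFlipAt P.An 𝔇F P.v₀ f → f = 0) {g : 𝔇F.Space} (hg0 : g ≠ 0)
    (hg : IsGoodVec P.An ∅ 𝔇F g) {ι : Type*} (e : HilbertBasis ι ℂ 𝔇F.Space) :
    LT.Joint.pairing
      (fun i => Combo.OF P.D P.σ P.An.A 𝔇F (galOp (P.D.levelIdeal_map P.σ) 𝔇F (e i)))
      (fun i => Combo.OF P.D P.σ (Combo.single (KWord.heckeW P.w₀ P.letter_w₀)) 𝔇F
        (Combo.OF P.D P.σ P.An.A 𝔇F (e i)))
      (LT.Joint.kerAll (P.XF 𝔇F 𝔇K)).starProjection ≠ 0 := by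
  classical
  set V := LT.Joint.kerAll (P.XF 𝔇F 𝔇K)
  set Pr := V.starProjection
  set θ := galOp (P.D.levelIdeal_map P.σ) 𝔇F
  set A := Combo.OF P.D P.σ P.An.A 𝔇F
  set T := Combo.OF P.D P.σ (Combo.single (KWord.heckeW P.w₀ P.letter_w₀)) 𝔇F
  set M : ℂ := (P.An.α : ℂ) * (P.An.α : ℂ) * (lamOf P.t P.w₀ * unitMean S.F)
  have hM : M ≠ 0 := mul_ne_zero
    (mul_ne_zero (Complex.ofReal_ne_zero.mpr P.An.α_ne_zero) (Complex.ofReal_ne_zero.mpr P.An.α_ne_zero))
    (mul_ne_zero (lamOf_ne_zero (P.t_ne_zero _ P.w₀_over)) (unitMean_ne_zero S.F))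
  have hMc : conj M = M := by simp [M, conj_lamOf, conj_unitMean]
  have hA : ∀ u ∈ V, A u = (P.An.α : ℂ) • u := fun u hu => (P.good_of_mem_kerF 𝔇K hflip hu).annih
  have hT : ∀ u ∈ V, T u = (lamOf P.t P.w₀ * unitMean S.F) • u := fun u hu =>
    (P.good_of_mem_kerF 𝔇K hflip hu).hecke _ P.letter_w₀ (Set.notMem_empty _)
  have hAP : ∀ y, Pr (A y) = A (Pr y) := LT.Joint.projection_commute
    (Combo.OF_symm P.D P.σ P.An.A 𝔇F) fun n => by
      refine Commute.smul_right ?_ _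
      exact (Combo.commute_OF P.D P.σ _ _ 𝔇F).sub_right ((Commute.one_right _).smul_right _)
  have hiso : ∀ x y, ⟪θ x, θ y⟫_ℂ = ⟪x, y⟫_ℂ :=
    ({ toLinearMap := θ.toLinearMap,
       norm_map' := norm_galOp (P.D.levelIdeal_map P.σ) 𝔇F } :
      𝔇F.Space →ₗᵢ[ℂ] 𝔇F.Space).inner_map_map
  have hterm : ∀ i, ⟪Pr (A (θ (e i))), T (A (e i))⟫_ℂ = M * ((‖Pr (e i)‖ ^ 2 : ℝ) : ℂ) := by
    intro i
    have hmem := Submodule.starProjection_apply_mem V (θ (e i))
    have h1 : A (T (A (Pr (θ (e i))))) = M • Pr (θ (e i)) := by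
      simp only [Pr, hA _ hmem, map_smul, hT _ hmem, smul_smul, M]
      congr 1
      ring
    have h2 : ⟪Pr (θ (e i)), e i⟫_ℂ = ⟪Pr (e i), Pr (e i)⟫_ℂ := by
      have hz := Submodule.starProjection_apply_mem V (e i)
      calc ⟪Pr (θ (e i)), e i⟫_ℂ = ⟪θ (e i), Pr (e i)⟫_ℂ :=
            Submodule.inner_starProjection_left_eq_right V _ _
        _ = ⟪θ (e i), θ (Pr (e i))⟫_ℂ := by rw [P.galOp_eq_self 𝔇K ht hflip hz]
        _ = ⟪e i, Pr (e i)⟫_ℂ := hiso _ _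
        _ = ⟪Pr (e i), Pr (e i)⟫_ℂ := by
            rw [Submodule.inner_starProjection_left_eq_right,
              Submodule.starProjection_eq_self_iff.mpr hz]
    calc ⟪Pr (A (θ (e i))), T (A (e i))⟫_ℂ = ⟪A (T (A (Pr (θ (e i))))), e i⟫_ℂ := by
          have hsA : ∀ x y, ⟪A x, y⟫_ℂ = ⟪x, A y⟫_ℂ := Combo.OF_symm P.D P.σ P.An.A 𝔇F
          have hsT : ∀ x y, ⟪T x, y⟫_ℂ = ⟪x, T y⟫_ℂ :=
            Combo.OF_symm P.D P.σ (Combo.single (KWord.heckeW P.w₀ P.letter_w₀)) 𝔇F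
          rw [hAP, ← hsT, ← hsA]
      _ = _ := by
          rw [h1, inner_smul_left, hMc, h2, inner_self_eq_norm_sq_to_K]
          push_cast
          rfl
  have hsum : Summable fun i => ‖Pr (e i)‖ ^ 2 := by
    refine Summable.of_nonneg_of_le (fun i => sq_nonneg _) (fun i => ?_)
      (((Combo.hasKernelF P.D P.σ P.An.A 𝔇F P.An.boundF).summable_norm_sq e).mul_left
        ((P.An.α ^ 2)⁻¹))
    have h1 : ‖A (Pr (e i))‖ ≤ ‖A (e i)‖ := by
      rw [← hAP]; exact Submodule.norm_starProjection_apply_le _ _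
    rw [hA _ (Submodule.starProjection_apply_mem _ _), norm_smul, Complex.norm_real,
      Real.norm_eq_abs] at h1
    rw [le_inv_mul_iff₀ (by have := P.An.α_ne_zero; positivity)]
    calc P.An.α ^ 2 * ‖Pr (e i)‖ ^ 2 = (|P.An.α| * ‖Pr (e i)‖) ^ 2 := by
          rw [mul_pow, sq_abs]
      _ ≤ _ := pow_le_pow_left₀ (by positivity) h1 2
  have hpos : 0 < ∑' i, ‖Pr (e i)‖ ^ 2 := by
    obtain ⟨i, hi⟩ : ∃ i, Pr (e i) ≠ 0 := by
      by_contra hno
      push Not at hno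
      refine hg0 (inner_self_eq_zero (𝕜 := ℂ) |>.mp ?_)
      have hgV : g ∈ V := P.mem_kerF_of_good 𝔇F 𝔇K hg
      rw [← (e.hasSum_inner_mul_inner g g).tsum_eq]
      refine (tsum_congr fun j => ?_).trans tsum_zero
      have : ⟪e j, g⟫_ℂ = 0 := by
        rw [← Submodule.starProjection_eq_self_iff.mpr hgV,
          ← Submodule.inner_starProjection_left_eq_right, hno, inner_zero_left]
      rw [this, mul_zero]
    exact hsum.tsum_pos (fun j => sq_nonneg _) i (pow_pos (norm_pos_iff.mpr hi) 2)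
  rw [LT.Joint.pairing, tsum_congr hterm, tsum_mul_left, ← Complex.ofReal_tsum]
  exact mul_ne_zero hM (Complex.ofReal_ne_zero.mpr hpos.ne')

end DescentData

end FermatAgent.LTG

end
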